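/-
S21 helper (helper88): MAXMOD core for the injectivity half of Eichler–Shimura.

A holomorphic function on the upper half plane whose modulus is `Γ₀(N)`-invariant and all of
whose `SL(2,ℤ)`-translates are `N`-periodic and bounded at `i∞` is constant.
-/
import Mathlib

set_option autoImplicit false

open UpperHalfPlane CongruenceSubgroup Filter Topology Function
open scoped MatrixGroups Manifold

namespace Fermat.Agent.S21.H88

local notation "𝕢" => Periodic.qParam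

/-- Translates of a holomorphic function by elements of `SL(2,ℤ)` are holomorphic. -/
theorem mdiff_comp_smul {G : ℍ → ℂ} (hG : MDiff G) (δ : SL(2, ℤ)) :
    MDiff (fun w : ℍ => G (δ • w)) := by
  have h1 : MDiff (fun τ : ℍ => (Matrix.SpecialLinearGroup.mapGL ℝ δ) • τ) :=
    mdifferentiable_smul (by simp)
  exact hG.comp h1

/-- `N`-periodicity on `ℍ` gives periodicity of the extension by `ofComplex`. -/
theorem periodic_comp_ofComplex_of_vadd {g : ℍ → ℂ} {h : ℝ}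
    (hper : ∀ w : ℍ, g (h +ᵥ w) = g w) : Periodic (g ∘ ofComplex) (h : ℂ) := by
  intro w
  by_cases hw : 0 < Complex.im w
  · have hw' : 0 < Complex.im (w + h) := by simpa using hw
    simp only [comp_apply, ofComplex_apply_of_im_pos hw', ofComplex_apply_of_im_pos hw]
    rw [← hper ⟨w, hw⟩]
    congr 1
    ext
    simp [add_comm]
  · have hw0 : Complex.im w ≤ 0 := not_lt.mp hw
    have hw' : Complex.im (w + h) ≤ 0 := by simpa using hw0
    simp [ofComplex_apply_of_im_nonpos hw', ofComplex_apply_of_im_nonpos hw0]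

/-- Every element of `SL(2,ℤ)` is `γ * r x` with `γ ∈ H` and `r x` one of finitely many
representatives (indexed by the finite quotient). -/
theorem exists_mem_mul_rep {Γ : Type*} [Group Γ] (H : Subgroup Γ) (g : Γ) :
    ∃ (x : Γ ⧸ H) (γ : Γ), γ ∈ H ∧ g = γ * (Quotient.out x)⁻¹ := by
  refine ⟨QuotientGroup.mk g⁻¹, ?_⟩
  obtain ⟨h, hh⟩ := QuotientGroup.mk_out_eq_mul H g⁻¹
  refine ⟨(h : Γ), h.2, ?_⟩
  rw [hh]
  group

/-- On the standard fundamental domain, the imaginary part is at least `1/2`. -/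
theorem half_le_im_of_mem_fd {w : ℍ} (hw : w ∈ ModularGroup.fd) : (1 / 2 : ℝ) ≤ w.im := by
  have h := ModularGroup.three_le_four_mul_im_sq_of_mem_fd hw
  have hpos := w.im_pos
  nlinarith

/-- **MAXMOD core.** A holomorphic function on `ℍ` with `Γ₀(N)`-invariant modulus, all of whose
`SL(2,ℤ)`-translates are `N`-periodic and bounded at `i∞`, is constant. -/
theorem const_of_norm_invariant (N : ℕ) [NeZero N] (G : ℍ → ℂ) (hG : MDiff G)
    (hinv : ∀ γ ∈ Gamma0 N, ∀ z : ℍ, ‖G (γ • z)‖ = ‖G z‖)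
    (hper : ∀ (δ : SL(2, ℤ)) (w : ℍ), G (δ • ((N : ℝ) +ᵥ w)) = G (δ • w))
    (hbdd : ∀ δ : SL(2, ℤ), IsBoundedAtImInfty (fun w : ℍ => G (δ • w))) :
    ∃ c : ℂ, ∀ z : ℍ, G z = c := by
  have hN : (0 : ℝ) < N := by exact_mod_cast Nat.pos_of_ne_zero (NeZero.ne N)
  -- the cusp functions of the translates
  set Gh : SL(2, ℤ) → ℂ → ℂ := fun δ => cuspFunction N (fun w : ℍ => G (δ • w)) with hGh
  have hperC : ∀ δ : SL(2, ℤ), Periodic ((fun w : ℍ => G (δ • w)) ∘ ofComplex) ((N : ℝ) : ℂ) :=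
    fun δ => periodic_comp_ofComplex_of_vadd (hper δ)
  have hdiff : ∀ δ : SL(2, ℤ), DifferentiableOn ℂ (Gh δ) (Metric.ball 0 1) := fun δ =>
    differentiableOn_cuspFunction_ball hN (hperC δ) (mdiff_comp_smul hG δ) (hbdd δ)
  have heq : ∀ (δ : SL(2, ℤ)) (w : ℍ), Gh δ (𝕢 N w) = G (δ • w) := fun δ w =>
    eq_cuspFunction (f := fun w : ℍ => G (δ • w)) w hN.ne' (hperC δ)
  -- the compact disc containing the image of the fundamental domain
  set ρ : ℝ := Real.exp (-Real.pi / N) with hρ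
  have hρ1 : ρ < 1 := by
    rw [hρ, Real.exp_lt_one_iff]
    exact div_neg_of_neg_of_pos (neg_lt_zero.mpr Real.pi_pos) hN
  have hρ0 : 0 ≤ ρ := (Real.exp_pos _).le
  have hKsub : Metric.closedBall (0 : ℂ) ρ ⊆ Metric.ball 0 1 := Metric.closedBall_subset_ball hρ1
  have hK : IsCompact (Metric.closedBall (0 : ℂ) ρ) := isCompact_closedBall 0 ρ
  have hKne : (Metric.closedBall (0 : ℂ) ρ).Nonempty := ⟨0, Metric.mem_closedBall_self hρ0⟩
  have hqfd : ∀ w : ℍ, w ∈ ModularGroup.fd → 𝕢 N w ∈ Metric.closedBall (0 : ℂ) ρ := by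
    intro w hw
    rw [mem_closedBall_zero_iff, Periodic.norm_qParam, hρ, Real.exp_le_exp]
    have him := half_le_im_of_mem_fd hw
    rw [div_le_div_iff_of_pos_right hN]
    have : (w : ℂ).im = w.im := rfl
    rw [this]
    nlinarith [Real.pi_pos]
  -- representatives
  set r : SL(2, ℤ) ⧸ Gamma0 N → SL(2, ℤ) := fun x => (Quotient.out x)⁻¹ with hr
  have : Finite (SL(2, ℤ) ⧸ Gamma0 N) := Subgroup.finite_quotient_of_finiteIndex
  -- maxima on the compact disc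
  have hmaxx : ∀ x : SL(2, ℤ) ⧸ Gamma0 N, ∃ q ∈ Metric.closedBall (0 : ℂ) ρ,
      IsMaxOn (fun q => ‖Gh (r x) q‖) (Metric.closedBall (0 : ℂ) ρ) q := fun x =>
    hK.exists_isMaxOn hKne ((hdiff (r x)).continuousOn.mono hKsub).norm
  choose qx hqxK hqxmax using hmaxx
  obtain ⟨x₀, hx₀⟩ := Finite.exists_max (fun x : SL(2, ℤ) ⧸ Gamma0 N => ‖Gh (r x) (qx x)‖)
  set M : ℝ := ‖Gh (r x₀) (qx x₀)‖ with hM
  -- global bound
  have hbound : ∀ z : ℍ, ‖G z‖ ≤ M := by
    intro z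
    obtain ⟨g, hg⟩ := ModularGroup.exists_smul_mem_fd z
    obtain ⟨x, γ, hγ, hgx⟩ := exists_mem_mul_rep (Gamma0 N) g⁻¹
    have hz : z = γ • (r x • (g • z)) := by
      rw [← mul_smul, ← mul_smul, hr]
      simp only
      rw [← hgx, inv_mul_cancel, one_smul]
    calc ‖G z‖ = ‖G (γ • (r x • (g • z)))‖ := by rw [← hz]
      _ = ‖G (r x • (g • z))‖ := hinv γ hγ _
      _ = ‖Gh (r x) (𝕢 N ((g • z : ℍ) : ℂ))‖ := by rw [heq]
      _ ≤ ‖Gh (r x) (qx x)‖ := hqxmax x (hqfd _ hg)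
      _ ≤ M := hx₀ x
  -- the bound on the whole unit disc for the maximizing translate
  have hball : ∀ q ∈ Metric.ball (0 : ℂ) 1, q ≠ 0 → ‖Gh (r x₀) q‖ ≤ M := by
    intro q hq hq0
    have hq1 : ‖q‖ < 1 := mem_ball_zero_iff.mp hq
    have him : 0 < (Periodic.invQParam N q).im := Periodic.im_invQParam_pos_of_norm_lt_one hN hq1 hq0
    have h1 := heq (r x₀) ⟨Periodic.invQParam N q, him⟩
    rw [show ((⟨Periodic.invQParam N q, him⟩ : ℍ) : ℂ) = Periodic.invQParam N q from rfl,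
      Periodic.qParam_right_inv hN.ne' hq0] at h1
    rw [h1]
    exact hbound _
  have hball0 : ‖Gh (r x₀) 0‖ ≤ M := by
    have hcont : ContinuousAt (Gh (r x₀)) 0 :=
      ((hdiff (r x₀)).differentiableAt (Metric.ball_mem_nhds 0 one_pos)).continuousAt
    have htend : Tendsto (fun q => ‖Gh (r x₀) q‖) (𝓝[≠] (0 : ℂ)) (𝓝 ‖Gh (r x₀) 0‖) :=
      (hcont.norm.tendsto).mono_left nhdsWithin_le_nhds
    refine le_of_tendsto htend ?_
    have h1 : ∀ᶠ q in 𝓝[≠] (0 : ℂ), q ∈ Metric.ball (0 : ℂ) 1 :=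
      nhdsWithin_le_nhds (Metric.ball_mem_nhds 0 one_pos)
    filter_upwards [h1, self_mem_nhdsWithin] with q hq hq0
    exact hball q hq hq0
  have hmax : IsMaxOn (norm ∘ Gh (r x₀)) (Metric.ball (0 : ℂ) 1) (qx x₀) := by
    intro q hq
    show ‖Gh (r x₀) q‖ ≤ ‖Gh (r x₀) (qx x₀)‖
    by_cases hq0 : q = 0
    · subst hq0; exact hball0
    · exact hball q hq hq0
  have hconst := Complex.eqOn_of_isPreconnected_of_isMaxOn_norm
    (convex_ball (0 : ℂ) 1).isPreconnected Metric.isOpen_ball (hdiff (r x₀))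
    (hKsub (hqxK x₀)) hmax
  refine ⟨Gh (r x₀) (qx x₀), fun z => ?_⟩
  have hz : z = r x₀ • ((r x₀)⁻¹ • z) := by rw [← mul_smul, mul_inv_cancel, one_smul]
  have hq1 : 𝕢 N (((r x₀)⁻¹ • z : ℍ) : ℂ) ∈ Metric.ball (0 : ℂ) 1 :=
    mem_ball_zero_iff.mpr (Periodic.norm_qParam_lt_one hN ((r x₀)⁻¹ • z).im_pos)
  rw [hz, ← heq, hconst hq1]
  rfl

/-- Variant of `const_of_norm_invariant` with limits at `i∞` and the `T`-power form of
periodicity. -/
theorem const_of_norm_invariant' (N : ℕ) [NeZero N] (G : ℍ → ℂ) (hG : MDiff G)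
    (hinv : ∀ γ ∈ Gamma0 N, ∀ z : ℍ, ‖G (γ • z)‖ = ‖G z‖)
    (hper : ∀ (δ : SL(2, ℤ)) (w : ℍ), G (δ • (ModularGroup.T ^ (N : ℤ) • w)) = G (δ • w))
    (hlim : ∀ δ : SL(2, ℤ), ∃ L : ℂ, Tendsto (fun w : ℍ => G (δ • w)) atImInfty (𝓝 L)) :
    ∃ c : ℂ, ∀ z : ℍ, G z = c := by
  refine const_of_norm_invariant N G hG hinv (fun δ w => ?_) (fun δ => ?_)
  · have := hper δ w
    rwa [modular_T_zpow_smul, Int.cast_natCast] at this
  · obtain ⟨L, hL⟩ := hlim δ
    exact hL.isBigO_one ℝ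

end Fermat.Agent.S21.H88
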