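/-
S21 helper (helper88): injectivity half of Eichler–Shimura (packages A4b, A4c of the S21 plan),
on top of the MAXMOD core `const_of_norm_invariant`.
-/
import Fermat.Agent.S21.H88.MaxMod
import Fermat.Prelude.Def_ModularCurve_PeriodHomPair

set_option autoImplicit false

open UpperHalfPlane CongruenceSubgroup Filter Topology Function ModularCurve ModularCurve.Period
open scoped MatrixGroups Manifold ComplexConjugate

namespace Fermat.Agent.S21.H88

/-- The reflected conjugate `F♯(z) = conj (F (-conj z))` of a function on `ℍ`. -/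
noncomputable def sharp (F : ℍ → ℂ) : ℍ → ℂ := fun z => conj (F (J • z))

theorem sharp_apply (F : ℍ → ℂ) (z : ℍ) : sharp F z = conj (F (J • z)) := rfl

/-- `F♯` is holomorphic where `F` is, with derivative `-conj (F' (-conj τ))`. -/
theorem hasDerivAt_sharp {F : ℍ → ℂ} {τ : ℍ} {d : ℂ}
    (h : HasDerivAt (F ∘ ofComplex) d ((J • τ : ℍ) : ℂ)) :
    HasDerivAt (sharp F ∘ ofComplex) (-conj d) (τ : ℂ) := by
  have h1 : HasDerivAt (fun u : ℂ => (F ∘ ofComplex) (-u)) (-d) (conj (τ : ℂ)) := by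
    have hneg : HasDerivAt (fun u : ℂ => -u) (-1) (conj (τ : ℂ)) := (hasDerivAt_id _).neg
    have h' : HasDerivAt (F ∘ ofComplex) d (-(conj (τ : ℂ))) := by rwa [coe_J_smul] at h
    have h'' := HasDerivAt.comp (conj (τ : ℂ)) h' hneg
    simpa [Function.comp_def] using h''
  have h2 := h1.conj_conj
  rw [Complex.conj_conj] at h2
  have h3 : (sharp F ∘ ofComplex) =ᶠ[𝓝 (τ : ℂ)]
      (conj ∘ (fun u : ℂ => (F ∘ ofComplex) (-u)) ∘ conj) := by
    filter_upwards [isOpen_upperHalfPlaneSet.mem_nhds τ.im_pos] with z hz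
    simp only [comp_apply, sharp]
    rw [J_smul, ofComplex_apply_of_im_pos hz]
  have h4 := h2.congr_of_eventuallyEq h3
  simpa using h4

/-- The reflection `J` intertwines `γ` and `jConjSL γ`. -/
theorem J_smul_smul (γ : SL(2, ℤ)) (z : ℍ) : J • (γ • z) = (jConjSL γ) • (J • z) := by
  show J • (Matrix.SpecialLinearGroup.mapGL ℝ γ • z)
    = Matrix.SpecialLinearGroup.mapGL ℝ (jConjSL γ) • (J • z)
  rw [← mul_smul, ← mul_smul]
  congr 1
  ext i j
  fin_cases i <;> fin_cases j <;>
    simp [J, jConjMat, Matrix.mul_apply, Fin.sum_univ_two]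

theorem J_smul_vadd (x : ℝ) (w : ℍ) : J • (x +ᵥ w) = (-x) +ᵥ (J • w) := by
  ext
  simp [coe_J_smul, coe_vadd]
  ring

theorem im_J_smul (w : ℍ) : (J • w).im = w.im := by
  have h : ((J • w : ℍ) : ℂ).im = (w : ℂ).im := by rw [coe_J_smul]; simp
  exact h

theorem tendsto_J_smul_atImInfty : Tendsto (fun w : ℍ => J • w) atImInfty atImInfty := by
  rw [atImInfty, tendsto_comap_iff]
  have : (UpperHalfPlane.im ∘ fun w : ℍ => J • w) = UpperHalfPlane.im := funext im_J_smul
  rw [this]
  exact tendsto_comap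

theorem tendsto_vadd_atImInfty (x : ℝ) : Tendsto (fun w : ℍ => x +ᵥ w) atImInfty atImInfty := by
  rw [atImInfty, tendsto_comap_iff]
  have : (UpperHalfPlane.im ∘ fun w : ℍ => x +ᵥ w) = UpperHalfPlane.im := funext (vadd_im x)
  rw [this]
  exact tendsto_comap

/-- `δ T^N δ⁻¹ ∈ Γ₀(N)`. -/
theorem conj_T_pow_mem_Gamma0 (N : ℕ) (δ : SL(2, ℤ)) :
    δ * ModularGroup.T ^ (N : ℤ) * δ⁻¹ ∈ Gamma0 N := by
  have h1 : ModularGroup.T ^ (N : ℤ) ∈ Gamma N := by
    simpa using ModularGroup_T_pow_mem_Gamma (N : ℤ) (N : ℤ) dvd_rfl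
  have h2 : δ * ModularGroup.T ^ (N : ℤ) * δ⁻¹ ∈ Gamma N :=
    (Gamma_normal N).conj_mem _ h1 δ
  rw [Gamma_mem] at h2
  rw [Gamma0_mem]
  exact h2.2.2.1

section Primitive

variable {N : ℕ} {F : ℍ → ℂ}

/-- Parabolic vanishing: a `Γ₀(N)`-equivariant function with limits at all cusps has
`N`-periodic translates. -/
theorem periodic_translate (hE : IsEquivariantPrimitive (Gamma0 N) F)
    (hlim : ∀ δ : SL(2, ℤ), ∃ L : ℂ, Tendsto (fun w : ℍ => F (δ • w)) atImInfty (𝓝 L))
    (δ : SL(2, ℤ)) (w : ℍ) : F (δ • ((N : ℝ) +ᵥ w)) = F (δ • w) := by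
  obtain ⟨c, hc⟩ := hE ⟨δ * ModularGroup.T ^ (N : ℤ) * δ⁻¹, conj_T_pow_mem_Gamma0 N δ⟩
  have hc' : ∀ w : ℍ, F (δ • ((N : ℝ) +ᵥ w)) - F (δ • w) = c := by
    intro w
    have := hc (δ • w)
    simp only at this
    rwa [← mul_smul, inv_mul_cancel_right, mul_smul, modular_T_zpow_smul, Int.cast_natCast]
      at this
  obtain ⟨L, hL⟩ := hlim δ
  have h1 : Tendsto (fun w : ℍ => F (δ • ((N : ℝ) +ᵥ w))) atImInfty (𝓝 L) :=
    hL.comp (tendsto_vadd_atImInfty (N : ℝ))
  have h2 : Tendsto (fun w : ℍ => F (δ • ((N : ℝ) +ᵥ w)) - F (δ • w)) atImInfty (𝓝 (L - L)) :=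
    h1.sub hL
  have h3 : Tendsto (fun _ : ℍ => c) atImInfty (𝓝 (L - L)) := by
    refine h2.congr fun w => hc' w
  have hc0 : c = 0 := by
    have := tendsto_nhds_unique h3 tendsto_const_nhds
    rw [sub_self] at this
    exact this.symm
  have := hc' w
  rw [hc0, sub_eq_zero] at this
  exact this

theorem periodic_translate_neg (hE : IsEquivariantPrimitive (Gamma0 N) F)
    (hlim : ∀ δ : SL(2, ℤ), ∃ L : ℂ, Tendsto (fun w : ℍ => F (δ • w)) atImInfty (𝓝 L))
    (δ : SL(2, ℤ)) (w : ℍ) : F (δ • ((-(N : ℝ)) +ᵥ w)) = F (δ • w) := by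
  have h := periodic_translate hE hlim δ ((-(N : ℝ)) +ᵥ w)
  rw [← h]
  congr 2
  ext
  simp

variable [NeZero N]

/-- **Key lemma.** Let `F` be a primitive of the cusp form `f` with period function `P`. If the
real part of `a • P γ + b • conj (P (jγj))` vanishes for all `γ`, then
`a • f τ - b • conj (f (-conj τ)) = 0` for all `τ`. -/
theorem key (f : CuspForm (Gamma0 N) 2) (hF : HasEquivariantPrimitive N f F) (a b : ℂ)
    (hre : ∀ γ : Gamma0 N, (a * hF.2.2.1.period γ
      + b * conj (hF.2.2.1.period (jConjGamma0 N γ))).re = 0) (τ : ℍ) :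
    a * f τ - b * conj (f (J • τ)) = 0 := by
  have hder := hF.1
  have hE := hF.2.2.1
  have hlim := hF.2.2.2
  set u : ℍ → ℂ := fun z => a * F z + b * sharp F z with hu
  set G : ℍ → ℂ := fun z => Complex.exp (u z) with hGdef
  -- derivative of u
  have hderu : ∀ σ : ℍ, HasDerivAt (u ∘ ofComplex) (a * f σ - b * conj (f (J • σ))) (σ : ℂ) := by
    intro σ
    have h1 := (hder σ).const_mul a
    have h2 := (hasDerivAt_sharp (hder (J • σ))).const_mul b
    have h3 := h1.add h2
    have e : (a * f σ - b * conj (f (J • σ))) = a * f σ + b * -conj (f (J • σ)) := by ring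
    rw [e]
    exact h3
  have hderG : ∀ σ : ℍ, HasDerivAt (G ∘ ofComplex)
      (Complex.exp (u σ) * (a * f σ - b * conj (f (J • σ)))) (σ : ℂ) := by
    intro σ
    have h := (hderu σ).cexp
    simp only [comp_apply, ofComplex_apply] at h
    exact h
  have hGmd : MDiff G := fun σ => mdifferentiableAt_iff.mpr (hderG σ).differentiableAt
  -- equivariance of u
  have hueq : ∀ (γ : Gamma0 N) (z : ℍ), u ((γ : SL(2, ℤ)) • z) = u z + (a * hE.period γ
      + b * conj (hE.period (jConjGamma0 N γ))) := by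
    intro γ z
    have h1 := hE.sub_eq_period γ z
    have h2 := hE.sub_eq_period (jConjGamma0 N γ) (J • z)
    rw [jConjGamma0_coe, ← J_smul_smul] at h2
    simp only [hu, sharp_apply]
    rw [← h1, ← h2, map_sub]
    ring
  have hGinv : ∀ γ ∈ Gamma0 N, ∀ z : ℍ, ‖G (γ • z)‖ = ‖G z‖ := by
    intro γ hγ z
    simp only [hGdef, Complex.norm_exp]
    have := hueq ⟨γ, hγ⟩ z
    simp only at this
    rw [this, Complex.add_re, hre ⟨γ, hγ⟩, add_zero]
  -- periodicity of translates
  have hGper : ∀ (δ : SL(2, ℤ)) (w : ℍ), G (δ • ((N : ℝ) +ᵥ w)) = G (δ • w) := by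
    intro δ w
    simp only [hGdef, hu, sharp_apply]
    rw [periodic_translate hE hlim δ w, J_smul_smul, J_smul_smul, J_smul_vadd,
      periodic_translate_neg hE hlim (jConjSL δ) (J • w)]
  -- limits at the cusps
  have hGlim : ∀ δ : SL(2, ℤ), ∃ L : ℂ, Tendsto (fun w : ℍ => G (δ • w)) atImInfty (𝓝 L) := by
    intro δ
    obtain ⟨L1, hL1⟩ := hlim δ
    obtain ⟨L2, hL2⟩ := hlim (jConjSL δ)
    have h2 : Tendsto (fun w : ℍ => sharp F (δ • w)) atImInfty (𝓝 (conj L2)) := by
      have h := hL2.comp tendsto_J_smul_atImInfty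
      have h' : Tendsto (fun w : ℍ => conj (F (jConjSL δ • (J • w)))) atImInfty (𝓝 (conj L2)) :=
        (Complex.continuous_conj.tendsto L2).comp h
      refine h'.congr fun w => ?_
      rw [sharp_apply, J_smul_smul]
    refine ⟨Complex.exp (a * L1 + b * conj L2), ?_⟩
    exact (Complex.continuous_exp.tendsto _).comp
      ((hL1.const_mul a).add (h2.const_mul b))
  have hGbdd : ∀ δ : SL(2, ℤ), IsBoundedAtImInfty (fun w : ℍ => G (δ • w)) := by
    intro δ
    obtain ⟨L, hL⟩ := hGlim δ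
    exact hL.isBigO_one ℝ
  obtain ⟨c, hc⟩ := const_of_norm_invariant N G hGmd hGinv hGper hGbdd
  have hconst : (G ∘ ofComplex) = fun _ => c := funext fun z => hc _
  have h0 : HasDerivAt (G ∘ ofComplex) 0 (τ : ℂ) := by
    rw [hconst]; exact hasDerivAt_const _ _
  have h1 := (hderG τ).unique h0
  exact (mul_eq_zero.mp h1).resolve_left (Complex.exp_ne_zero _)

/-- A4b (plus sign): if `P + ι P = 0` for the period homomorphism `P` of `f`, then `f = 0`. -/
theorem eq_zero_of_periodHom_add (f : CuspForm (Gamma0 N) 2) (hF : HasEquivariantPrimitive N f F)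
    (h : hF.2.2.1.periodHom + charInvolution N ℂ ℂ hF.2.2.1.periodHom = 0) : f = 0 := by
  have hP : ∀ γ : Gamma0 N, hF.2.2.1.period (jConjGamma0 N γ) = -hF.2.2.1.period γ := by
    intro γ
    have := DFunLike.congr_fun h (Additive.ofMul γ)
    simp only [AddMonoidHom.add_apply, charInvolution_apply, toMul_ofMul,
      IsEquivariantPrimitive.periodHom_apply, AddMonoidHom.zero_apply] at this
    exact eq_neg_of_add_eq_zero_right this
  have k1 := key f hF 1 1 (fun γ => by
    rw [hP γ]; simp)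
  have k2 := key f hF (-Complex.I) Complex.I (fun γ => by
    rw [hP γ]; simp)
  ext τ
  have e1 := k1 τ
  have e2 := k2 τ
  have hI : Complex.I ≠ 0 := Complex.I_ne_zero
  have e3 : Complex.I * (f τ + conj (f (J • τ))) = 0 := by linear_combination -e2
  have e4 : f τ + conj (f (J • τ)) = 0 := (mul_eq_zero.mp e3).resolve_left hI
  have e5 : (2 : ℂ) * f τ = 0 := by linear_combination e1 + e4
  have e6 : f τ = 0 := (mul_eq_zero.mp e5).resolve_left two_ne_zero
  simpa using e6

/-- A4b (minus sign): if `P - ι P = 0` for the period homomorphism `P` of `f`, then `f = 0`. -/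
theorem eq_zero_of_periodHom_sub (f : CuspForm (Gamma0 N) 2) (hF : HasEquivariantPrimitive N f F)
    (h : hF.2.2.1.periodHom - charInvolution N ℂ ℂ hF.2.2.1.periodHom = 0) : f = 0 := by
  have hP : ∀ γ : Gamma0 N, hF.2.2.1.period (jConjGamma0 N γ) = hF.2.2.1.period γ := by
    intro γ
    have := DFunLike.congr_fun h (Additive.ofMul γ)
    simp only [AddMonoidHom.sub_apply, charInvolution_apply, toMul_ofMul,
      IsEquivariantPrimitive.periodHom_apply, AddMonoidHom.zero_apply] at this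
    exact (sub_eq_zero.mp this).symm
  have k1 := key f hF 1 (-1) (fun γ => by
    rw [hP γ]; simp)
  have k2 := key f hF (-Complex.I) (-Complex.I) (fun γ => by
    rw [hP γ]; simp)
  ext τ
  have e1 := k1 τ
  have e2 := k2 τ
  have hI : Complex.I ≠ 0 := Complex.I_ne_zero
  have e3 : Complex.I * (f τ - conj (f (J • τ))) = 0 := by linear_combination -e2
  have e4 : f τ - conj (f (J • τ)) = 0 := (mul_eq_zero.mp e3).resolve_left hI
  have e5 : (2 : ℂ) * f τ = 0 := by linear_combination e1 + e4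
  have e6 : f τ = 0 := (mul_eq_zero.mp e5).resolve_left two_ne_zero
  simpa using e6

end Primitive

/-- A4c: the period pairing is injective as soon as primitives exist and the period map is
linear. -/
theorem injective_periodHomPair (N : ℕ) [NeZero N] (hlin : ExistsPeriodMapLinear N)
    (hex : ∀ f : CuspForm (Gamma0 N) 2, ∃ F, HasEquivariantPrimitive N f F) :
    Function.Injective (periodHomPair N) := by
  obtain ⟨pml, hpml, hdef⟩ := periodHomPair_def N hlin
  rw [injective_iff_map_eq_zero]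
  rintro ⟨f, g⟩ hfg
  rw [hdef] at hfg
  simp only [LinearMap.coprod_apply, LinearMap.comp_apply, LinearMap.add_apply,
    LinearMap.sub_apply, LinearMap.id_apply] at hfg
  set A := pml f with hA
  set B := pml g with hB
  set ι := charInvolution N ℂ ℂ with hι
  have hιι : ∀ ψ, ι (ι ψ) = ψ := charInvolution_charInvolution N ℂ ℂ
  have h2 : ι A + A + (ι B - B) = 0 := by
    have := congrArg ι hfg
    rw [map_add, map_add, map_sub, hιι, hιι, map_zero] at this
    exact this
  have hAA : A + ι A = 0 := by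
    have h3 : (2 : ℂ) • (A + ι A) = 0 := by
      rw [two_smul]
      have : A + ι A + (A + ι A) = (A + ι A + (B - ι B)) + (ι A + A + (ι B - B)) := by abel
      rw [this, hfg, h2, add_zero]
    exact (smul_eq_zero.mp h3).resolve_left two_ne_zero
  have hBB : B - ι B = 0 := by
    have h3 : (2 : ℂ) • (B - ι B) = 0 := by
      rw [two_smul]
      have : B - ι B + (B - ι B) = (A + ι A + (B - ι B)) - (ι A + A + (ι B - B)) := by abel
      rw [this, hfg, h2, sub_zero]
    exact (smul_eq_zero.mp h3).resolve_left two_ne_zero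
  have hf0 : f = 0 := by
    obtain ⟨F, hF⟩ := hex f
    obtain ⟨F₀, h₀, hp⟩ := periodMap_def N f hF
    have : A = h₀.2.2.1.periodHom := by rw [hA, hpml, hp]
    rw [this] at hAA
    exact eq_zero_of_periodHom_add f h₀ hAA
  have hg0 : g = 0 := by
    obtain ⟨F, hF⟩ := hex g
    obtain ⟨F₀, h₀, hp⟩ := periodMap_def N g hF
    have : B = h₀.2.2.1.periodHom := by rw [hB, hpml, hp]
    rw [this] at hBB
    exact eq_zero_of_periodHom_sub g h₀ hBB
  rw [hf0, hg0]
  rfl

end Fermat.Agent.S21.H88
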